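import Fermat.Agent.JacCharts.Torsion
import Fermat.Agent.Curve.Basics
import Fermat.Agent.Curve.RR.Setup

/-!
# Reduction is injective on Kummer classes

For a good reduction datum over algebraically closed fields and `n` prime to the residue
characteristic: a function with all orders divisible by `n` whose reduction is an `n`-th power is
an `n`-th power.
-/

set_option autoImplicit false

noncomputable section

open AlgebraicCurve FermatAgent.Curve.RR

namespace FermatAgent.DeligneSerre.X1

open FermatAgent.JacCharts FermatAgent.JacCharts.GoodReductionDatum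

variable {K : Type*} [Field K] [IsAlgClosed K] {A : ValuationSubring K} {k : Type*} [Field k]
  [IsAlgClosed k] {π : A →+* k} {F : Type*} [Field F] [Algebra K F] [Curve.IsFunctionField1 K F]
  {Fb : Type*} [Field Fb] [Algebra k Fb] [Curve.IsFunctionField1 k Fb]
  {d : GoodReductionDatum A π F Fb}

/-- Reduction is injective on `{y : n ∣ ord y}` modulo `n`-th powers. -/
theorem exists_pow_eq_of_redsTo_pow {n : ℕ} (hn : (n : k) ≠ 0) {y : F} (hy : y ≠ 0)
    (hsel : ∀ P : Place K F, (n : ℤ) ∣ P.ord y) {c : K} (hc : c ≠ 0) {w : Fb} (hw : w ≠ 0)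
    (h : d.RedsTo (c • y) (w ^ n)) : ∃ v : F, v ^ n = y := by
  classical
  have hn0 : n ≠ 0 := fun h0 => hn (by rw [h0, Nat.cast_zero])
  have hnz : (n : ℤ) ≠ 0 := Int.natCast_ne_zero.mpr hn0
  have hcy : c • y ≠ 0 := smul_ne_zero hc hy
  set D : Divisor K F := (divOf (K := K) (c • y)).mapRange (fun z : ℤ => z / n) (Int.zero_ediv _)
  have hnD : n • D = divOf (K := K) (c • y) := Finsupp.ext fun P => by
    rw [Finsupp.smul_apply, Finsupp.mapRange_apply, nsmul_eq_mul]
    exact Int.mul_ediv_cancel' (by rw [divOf_apply hcy, ord_const_smul P hc hy]; exact hsel P)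
  have hdeg : Divisor.degree D = 0 := by
    have h1 := congrArg (Divisor.degree (K := K) (F := F)) hnD
    rw [map_nsmul, degree_divOf hcy, nsmul_eq_mul] at h1
    exact (mul_eq_zero.mp h1).resolve_left hnz
  set x : Pic0 K F := Pic0.mk ⟨D, Divisor.mem_degZero.mpr hdeg⟩
  have hred : d.redPic0 x = 0 := by
    rw [redPic0_mk_eq_zero_iff]
    have h1 : n • d.redDiv D = n • divOf (K := k) w := by
      rw [← map_nsmul, hnD, h.redDiv_divOf (pow_ne_zero n hw)]
      exact Finsupp.ext fun Q => by
        rw [divOf_apply (pow_ne_zero n hw), Finsupp.smul_apply, divOf_apply hw, Curve.ord_pow',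
          nsmul_eq_mul]
    have h2 : d.redDiv D = divOf (K := k) w := Finsupp.ext fun Q => by
      have := congrArg (fun E : Divisor k Fb => E Q) h1
      simpa [hn0] using this
    show d.redDiv D ∈ _
    rw [h2]
    exact divOf_mem_principal hw
  have hnx : n • x = 0 := by
    show n • QuotientAddGroup.mk _ = 0
    rw [← QuotientAddGroup.mk_nsmul, QuotientAddGroup.eq_zero_iff, AddSubgroup.mem_addSubgroupOf]
    show n • D ∈ _
    rw [hnD]
    exact divOf_mem_principal hcy
  have hx := eq_zero_of_redPic0_eq_zero_of_nsmul_eq_zero (d := d) hred hn hnx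
  obtain ⟨z, hz, hzD⟩ : D ∈ Divisor.principal (K := K) (F := F) :=
    AddSubgroup.mem_addSubgroupOf.mp ((QuotientAddGroup.eq_zero_iff _).mp hx)
  obtain ⟨a, ha⟩ := (Curve.forall_ord_eq_zero_iff (K := K) (f := c • y / z ^ n)).mp fun P => by
    rw [Curve.ord_div P hcy (pow_ne_zero n hz), Curve.ord_pow', ← hzD P, ← divOf_apply hcy, ← hnD,
      Finsupp.smul_apply, nsmul_eq_mul, sub_self]
  obtain ⟨r, hr⟩ := IsAlgClosed.exists_pow_nat_eq (c⁻¹ * a) (Nat.pos_of_ne_zero hn0)
  refine ⟨r • z, ?_⟩
  rw [smul_pow, hr, mul_smul, Algebra.smul_def a, ha, div_mul_cancel₀ _ (pow_ne_zero n hz),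
    inv_smul_smul₀ hc]

end FermatAgent.DeligneSerre.X1
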