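import Fermat.Agent.DeligneSerre.X1.ES.Galois
import Fermat.Agent.DeligneSerre.X1.ES.Inject
import Fermat.Agent.DeligneSerre.X1.KummerGroup
import Fermat.Agent.ES.Series
import Fermat.Agent.Igusa.GoodRed.Concrete

/-!
# Inertia and the congruence relation on Kummer classes of `X₁(M)`

At a place `A` over a prime `p ∤ n M`: inertia fixes the classes, and for a Frobenius `σ`, a
diamond `φ` and `T` with `IsHeckeOp M p φ T` the class of `σ² y (φ y) ^ p / T (σ y)` is trivial.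
-/

set_option autoImplicit false
set_option linter.unusedSectionVars false

noncomputable section

open AlgebraicCurve ModularCurve

namespace FermatAgent.DeligneSerre.X1

open FermatAgent.JacCharts FermatAgent.JacCharts.GoodReductionDatum

local notation "Qb" => AlgebraicClosure ℚ
local notation "GQ" => AlgebraicClosure ℚ ≃ₐ[ℚ] AlgebraicClosure ℚ

variable {M : ℕ} [NeZero M] (A : ValuationSubring Qb) {p : ℕ} (hp : p.Prime)
  (hA : A.LiesOverPrime p) (h5 : 5 < M) (hpM : ¬ p ∣ M)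

local notation "kA" => IsLocalRing.ResidueField A

/-- `x` is integral with nonzero reduction `r`. -/
def HasRed (x : x1Bar M) (r : LaurentSeries (IsLocalRing.ResidueField A)) : Prop :=
  ∃ h : x ∈ x1Int A M, lsRed A (x1Bar M) ⟨x, h⟩ = r ∧ r ≠ 0

variable {A}

theorem HasRed.mul {x y : x1Bar M} {r r' : LaurentSeries kA} (hx : HasRed A x r)
    (hy : HasRed A y r') : HasRed A (x * y) (r * r') := by
  obtain ⟨h, e, h0⟩ := hx
  obtain ⟨h', e', h0'⟩ := hy
  exact ⟨mul_mem h h', by rw [← e, ← e', ← map_mul]; rfl, mul_ne_zero h0 h0'⟩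

theorem HasRed.inv {x : x1Bar M} {r : LaurentSeries kA} (hx : HasRed A x r) :
    HasRed A x⁻¹ r⁻¹ := by
  obtain ⟨h, e, h0⟩ := hx
  have h' : x⁻¹ ∈ x1Int A M := inv_mem_lsInt A (x1Bar M) ⟨x, h⟩ (e ▸ h0)
  have hx0 : x ≠ 0 := by
    rintro rfl
    exact h0 (e ▸ map_zero (lsRed A (x1Bar M)))
  refine ⟨h', eq_inv_of_mul_eq_one_left ?_, inv_ne_zero h0⟩
  rw [← e, ← map_mul,
    show (⟨x⁻¹, h'⟩ * ⟨x, h⟩ : x1Int A M) = 1 from Subtype.ext (inv_mul_cancel₀ hx0), map_one]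

theorem HasRed.div {x y : x1Bar M} {r r' : LaurentSeries kA} (hx : HasRed A x r)
    (hy : HasRed A y r') : HasRed A (x / y) (r / r') := by
  rw [div_eq_mul_inv, div_eq_mul_inv]
  exact hx.mul hy.inv

theorem HasRed.pow {x : x1Bar M} {r : LaurentSeries kA} (hx : HasRed A x r) (n : ℕ) :
    HasRed A (x ^ n) (r ^ n) := by
  induction n with
  | zero =>
    rw [pow_zero, pow_zero]
    exact ⟨one_mem _, map_one _, one_ne_zero⟩
  | succ n ih =>
    rw [pow_succ, pow_succ]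
    exact ih.mul hx

theorem HasRed.galois (g : A.decompositionSubgroup ℚ) {x : x1Bar M} {r : LaurentSeries kA}
    (hx : HasRed A x r) :
    HasRed A (x1Gal M (g : GQ) x) (coeffMap (ES.residueAut g).toRingHom r) := by
  obtain ⟨h, e, h0⟩ := hx
  refine ⟨x1Gal_mem_x1Int g h, ?_, ?_⟩
  · rw [← e]; exact lsRed_x1Gal g ⟨x, h⟩
  · exact (map_ne_zero_iff _ (Igusa.coeffMap_injective (ES.residueAut g).injective)).mpr h0

variable (A)

include hp hA h5 hpM in
theorem exists_hasRed {y : x1Bar M} (hy : y ≠ 0) :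
    ∃ (c : Qb) (r : LaurentSeries kA), c ≠ 0 ∧ HasRed A (c • y) r := by
  obtain ⟨c, h, h0⟩ := exists_x1_normalize A hp hA h5 hpM y hy
  refine ⟨c, _, ?_, h, rfl, fun e => h0 (Subtype.ext e)⟩
  rintro rfl
  refine h0 (Subtype.ext ?_)
  have e : (⟨(0 : Qb) • y, h⟩ : x1Int A M) = 0 := Subtype.ext (zero_smul Qb y)
  rw [coe_x1Red, e, map_zero]
  rfl

include hp hA h5 hpM in
/-- A function with orders divisible by `n` and constant reduction is an `n`-th power. -/
theorem exists_pow_eq_of_hasRed_one {n : ℕ} (hn : ¬ p ∣ n) {y : x1Bar M} (hy : y ≠ 0)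
    (hsel : ∀ P : Place Qb (x1Bar M), (n : ℤ) ∣ P.ord y) {c : Qb} (hc : c ≠ 0)
    (h : HasRed A (c • y) 1) : ∃ v : x1Bar M, v ^ n = y := by
  have := Igusa.Down.isAlgClosed_residueField A
  have := Igusa.Down.charP_residueField hp hA
  have := isFunctionField1_x1Bar (M := M) h5
  have := isFunctionField1_x1_fibre A hp hA h5 hpM
  obtain ⟨hm, e, -⟩ := h
  refine exists_pow_eq_of_redsTo_pow (d := x1Datum A hp hA h5 hpM)
    (fun h0 => hn ((CharP.cast_eq_zero_iff kA p n).mp h0)) hy hsel hc (w := 1) one_ne_zero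
    ⟨hm, Subtype.ext ?_⟩
  rw [one_pow]
  exact (coe_x1Datum_red A hp hA h5 hpM ⟨c • y, hm⟩).trans e

include hp hA h5 hpM in
/-- Inertia fixes Kummer classes. -/
theorem exists_pow_eq_of_inertia {σ : GQ} (hσ : σ ∈ A.inertiaSubgroupIn ℚ) {n : ℕ} (hn : ¬ p ∣ n)
    (y : (x1Bar M)ˣ)
    (hsel : Units.map (x1Gal M σ).toRingHom.toMonoidHom y * y⁻¹ ∈ kummerSel Qb (x1Bar M) n) :
    ∃ v : (x1Bar M)ˣ, v ^ n = Units.map (x1Gal M σ).toRingHom.toMonoidHom y * y⁻¹ := by
  obtain ⟨hD, hres⟩ := ES.residueAut_of_mem_inertia hσ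
  obtain ⟨c, r, hc, hr⟩ := exists_hasRed A hp hA h5 hpM y.ne_zero
  have hg := hr.galois ⟨σ, hD⟩
  rw [hres, show ((RingEquiv.refl kA).toRingHom) = RingHom.id kA from rfl, coeffMap_id] at hg
  have h := hg.div hr
  rw [div_self hr.choose_spec.2, x1Gal_smul] at h
  have hσc : σ c ≠ 0 := (map_ne_zero σ).mpr hc
  set Y : (x1Bar M)ˣ := Units.map (x1Gal M σ).toRingHom.toMonoidHom y * y⁻¹
  obtain ⟨v, hv⟩ := exists_pow_eq_of_hasRed_one A hp hA h5 hpM hn Y.ne_zero hsel
    (c := σ c / c) (div_ne_zero hσc hc) (by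
      convert h using 1
      simp [Y, Algebra.smul_def, div_eq_mul_inv, map_mul, map_inv₀]
      ring)
  rcases eq_or_ne n 0 with rfl | hn0
  · exact absurd (dvd_zero p) hn
  have hv0 : v ≠ 0 := by
    rintro rfl
    exact Y.ne_zero (by rw [← hv, zero_pow hn0])
  exact ⟨Units.mk0 v hv0, Units.ext hv⟩

include hp hA h5 hpM in
/-- Roots of unity of order `p` are `1` in the residue field. -/
theorem exists_unit_residue_one {ζ : Qbˣ} (hζ : ζ ^ p = 1) :
    ∃ z : Aˣ, Units.map A.subtype.toMonoidHom z = ζ ∧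
      Units.map (IsLocalRing.residue A).toMonoidHom z = 1 := by
  have := Igusa.Down.charP_residueField hp hA
  have : Fact p.Prime := ⟨hp⟩
  have hmem : ∀ u : Qbˣ, u ^ p = 1 → (u : Qb) ∈ A := fun u hu => by
    rw [← A.valuation_le_one_iff]
    refine le_of_eq ((pow_eq_one_iff.mp ?_).resolve_right hp.ne_zero)
    rw [← map_pow, ← Units.val_pow_eq_pow_val, hu, Units.val_one, map_one]
  let z : Aˣ := ⟨⟨ζ, hmem ζ hζ⟩, ⟨(ζ⁻¹ : Qbˣ), hmem ζ⁻¹ (by rw [inv_pow, hζ, inv_one])⟩,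
    Subtype.ext ζ.mul_inv, Subtype.ext ζ.inv_mul⟩
  refine ⟨z, Units.ext rfl, Units.ext ?_⟩
  show IsLocalRing.residue A (z : A) = 1
  have hz : (z : A) ^ p = 1 := Subtype.ext (by
    rw [SubmonoidClass.coe_pow, OneMemClass.coe_one]
    exact (Units.val_pow_eq_pow_val ζ p).symm.trans (congrArg Units.val hζ))
  have h2 := congrArg (IsLocalRing.residue A) hz
  rw [map_pow, map_one] at h2
  exact frobenius_inj kA p (by rw [frobenius_def, frobenius_def, one_pow, h2])

variable [NeZero p]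

include hp hA h5 hpM in
/-- The reduction of the series defining `T`. -/
theorem hasRed_heckeSeries {X z w : x1Bar M} {rX rz rw' : LaurentSeries kA} {ζ : Qbˣ}
    (hζ : ζ ^ p = 1) {c : Qb} (hX : HasRed A (c • X) rX) (hz : HasRed A z rz)
    (hw : HasRed A w rw')
    (hdef : qExpand Qb p (X : LaurentSeries Qb) = qExpand Qb (p * p) (w : LaurentSeries Qb) *
      ∏ b ∈ Finset.range p, ES.qTwist (ζ ^ b) (z : LaurentSeries Qb)) :
    ∃ a : kA, a ≠ 0 ∧ qExpand kA p rX =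
      HahnSeries.C a * (qExpand kA (p * p) rw' * rz ^ p) := by
  obtain ⟨zA, hzA, hzA1⟩ := exists_unit_residue_one A hp hA h5 hpM hζ
  obtain ⟨hXm, hXe, hX0⟩ := hX
  obtain ⟨hzm, hze, hz0⟩ := hz
  obtain ⟨hwm, hwe, hw0⟩ := hw
  obtain ⟨sX, tX, -, htX, eX⟩ := exists_rep A (x1Bar M) ⟨_, hXm⟩
  obtain ⟨sz, tz, -, htz, ez⟩ := exists_rep A (x1Bar M) ⟨_, hzm⟩
  obtain ⟨sw, tw, -, htw, ew⟩ := exists_rep A (x1Bar M) ⟨_, hwm⟩
  have hres : ∀ s : LaurentSeries A,
      lsResidue A (∏ b ∈ Finset.range p, ES.qTwist (zA ^ b) s) = lsResidue A s ^ p := fun s => by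
    rw [map_prod, Finset.prod_eq_pow_card (b := lsResidue A s), Finset.card_range]
    intro b _
    rw [lsResidue, ES.coeffMap_qTwist, map_pow, hzA1, one_pow, ES.qTwist_one_apply]
  have hincl : ∀ s : LaurentSeries A,
      lsIncl A (∏ b ∈ Finset.range p, ES.qTwist (zA ^ b) s) =
        ∏ b ∈ Finset.range p, ES.qTwist (ζ ^ b) (lsIncl A s) := fun s => by
    rw [map_prod]
    refine Finset.prod_congr rfl fun b _ => ?_
    rw [lsIncl, ES.coeffMap_qTwist, map_pow, hzA]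
  set u := qExpand A p sX * (qExpand A (p * p) tw * ∏ b ∈ Finset.range p, ES.qTwist (zA ^ b) tz)
    with hu
  set v := qExpand A p tX * (qExpand A (p * p) sw * ∏ b ∈ Finset.range p, ES.qTwist (zA ^ b) sz)
    with hv
  have hne : ∀ (m : ℕ) [NeZero m] (s : LaurentSeries kA), s ≠ 0 → qExpand kA m s ≠ 0 :=
    fun m _ s hs => (map_ne_zero_iff _ (qExpand_injective (R := kA) m)).mpr hs
  have eX' := (lsRed_eq_div A (x1Bar M) ⟨_, hXm⟩ htX eX).symm.trans hXe
  have ez' := (lsRed_eq_div A (x1Bar M) ⟨_, hzm⟩ htz ez).symm.trans hze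
  have ew' := (lsRed_eq_div A (x1Bar M) ⟨_, hwm⟩ htw ew).symm.trans hwe
  have hsX : lsResidue A sX ≠ 0 := fun h => hX0 (by rw [← eX', h, zero_div])
  have hsz : lsResidue A sz ≠ 0 := fun h => hz0 (by rw [← ez', h, zero_div])
  have hsw : lsResidue A sw ≠ 0 := fun h => hw0 (by rw [← ew', h, zero_div])
  have hu0 : lsResidue A u ≠ 0 := by
    rw [hu, map_mul, map_mul, hres, lsResidue, coeffMap_qExpand, coeffMap_qExpand]
    exact mul_ne_zero (hne p _ hsX) (mul_ne_zero (hne _ _ htw) (pow_ne_zero _ htz))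
  have hv0 : lsResidue A v ≠ 0 := by
    rw [hv, map_mul, map_mul, hres, lsResidue, coeffMap_qExpand, coeffMap_qExpand]
    exact mul_ne_zero (hne p _ htX) (mul_ne_zero (hne _ _ hsw) (pow_ne_zero _ hsz))
  have hrel : lsIncl A u = HahnSeries.C c * lsIncl A v := by
    rw [hu, hv]
    simp only [map_mul, hincl]
    simp only [lsIncl, coeffMap_qExpand] at eX ez ew ⊢
    rw [← eX, ← ez, ← ew, map_mul, map_mul]
    simp only [map_mul, Finset.prod_mul_distrib]
    rw [show (((c • X : x1Bar M)) : LaurentSeries Qb) = HahnSeries.C c * (X : LaurentSeries Qb) from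
      Igusa.Down.coe_smul_series Qb c X, map_mul, hdef,
      HahnSeries.C_apply, qExpand_single, mul_zero]
    ring
  have hc : c ∈ A := mem_of_C_mul_eq A hv0 hrel
  have hrel' : u = HahnSeries.C (⟨c, hc⟩ : A) * v := lsIncl_injective A (by
    rw [hrel, map_mul (lsIncl A) (HahnSeries.C _) v, Igusa.coeffMap_C]; rfl)
  have h := congrArg (lsResidue A) hrel'
  rw [map_mul (lsResidue A) (HahnSeries.C _) v, Igusa.coeffMap_C] at h
  refine ⟨IsLocalRing.residue A ⟨c, hc⟩, fun ha => hu0 (by rw [h, ha, map_zero, zero_mul]), ?_⟩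
  rw [hu, hv, map_mul, map_mul, hres, map_mul, map_mul, hres, lsResidue, coeffMap_qExpand,
    coeffMap_qExpand, coeffMap_qExpand, coeffMap_qExpand] at h
  rw [← eX', ← ez', ← ew', map_div₀, map_div₀, div_pow, div_mul_div_comm, ← mul_div_assoc,
    div_eq_div_iff (hne p _ htX) (mul_ne_zero (hne _ _ htw) (pow_ne_zero _ htz)), h]
  ring

include hp hA h5 hpM in
/-- The congruence relation on Kummer classes. -/
theorem exists_pow_eq_of_frobenius {σ : GQ} (hσ : A.IsFrobeniusAt σ p) {d : (ZMod M)ˣ}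
    {φ : x1Bar M ≃ₐ[Qb] x1Bar M} (hφ : IsDiamond M d φ) {T : (x1Bar M)ˣ →* (x1Bar M)ˣ}
    (hT : IsHeckeOp M p φ T) {n : ℕ} (hn : ¬ p ∣ n) (y : (x1Bar M)ˣ)
    (hsel : Units.map (x1Gal M σ).toRingHom.toMonoidHom
        (Units.map (x1Gal M σ).toRingHom.toMonoidHom y) *
          Units.map φ.toRingEquiv.toRingHom.toMonoidHom y ^ p *
            (T (Units.map (x1Gal M σ).toRingHom.toMonoidHom y))⁻¹ ∈ kummerSel Qb (x1Bar M) n) :
    ∃ v : (x1Bar M)ˣ, v ^ n = Units.map (x1Gal M σ).toRingHom.toMonoidHom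
        (Units.map (x1Gal M σ).toRingHom.toMonoidHom y) *
          Units.map φ.toRingEquiv.toRingHom.toMonoidHom y ^ p *
            (T (Units.map (x1Gal M σ).toRingHom.toMonoidHom y))⁻¹ := by
  have := Igusa.Down.charP_residueField hp hA
  have : Fact p.Prime := ⟨hp⟩
  set g : A.decompositionSubgroup ℚ := ⟨σ, hσ.mem_decompositionSubgroup⟩
  have hfr : (ES.residueAut g).toRingHom = frobenius kA p :=
    RingHom.ext fun x => ES.residueAut_of_isFrobeniusAt hσ x
  obtain ⟨ζ₀, hζ₀⟩ := HasEnoughRootsOfUnity.exists_primitiveRoot Qb p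
  obtain ⟨ζ, rfl⟩ := hζ₀.isUnit (NeZero.ne p)
  have hζ : IsPrimitiveRoot ζ p := IsPrimitiveRoot.coe_units_iff.mp hζ₀
  set z : (x1Bar M)ˣ := Units.map (x1Gal M σ).toRingHom.toMonoidHom y with hzdef
  obtain ⟨c, ru, hc, hu⟩ := exists_hasRed A hp hA h5 hpM y.ne_zero
  obtain ⟨c', rw', hc', hw⟩ := exists_hasRed A hp hA h5 hpM
    (show φ (y : x1Bar M) ≠ 0 from (map_ne_zero _).mpr y.ne_zero)
  obtain ⟨c'', rX, hc'', hX⟩ := exists_hasRed A hp hA h5 hpM (T z).ne_zero
  have hσu := hu.galois g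
  have hσσu := hσu.galois g
  have hσw := hw.galois g
  rw [hfr] at hσu hσσu hσw
  -- the defining relation, rescaled
  have hdef := hT ζ hζ z
  set e : Qb := σ c' * σ c ^ p with hedef
  have he : e ≠ 0 := mul_ne_zero ((map_ne_zero σ).mpr hc') (pow_ne_zero _ ((map_ne_zero σ).mpr hc))
  set X : x1Bar M := e • (T z : x1Bar M)
  have hzx : x1Gal M σ (c • (y : x1Bar M)) = σ c • (z : x1Bar M) := x1Gal_smul σ c _
  have hwx : x1Gal M σ (c' • φ (y : x1Bar M)) = σ c' • φ (z : x1Bar M) := by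
    rw [x1Gal_smul, ← hφ.x1Gal_comm]
    rfl
  have hX' : HasRed A ((c'' / e) • X) rX := by
    rwa [smul_smul, div_mul_cancel₀ _ he]
  obtain ⟨a, ha, hrel⟩ := hasRed_heckeSeries A hp hA h5 hpM
    hζ.pow_eq_one hX' hσu hσw (by
      rw [show (g : GQ) = σ from rfl, hzx, hwx]
      simp only [X, Igusa.Down.coe_smul_series, map_mul, Finset.prod_mul_distrib, hdef]
      simp only [HahnSeries.C_apply, qExpand_single, mul_zero, ES.qTwist_single, zpow_zero,
        Units.val_one, one_mul, Finset.prod_const, Finset.card_range, HahnSeries.single_pow,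
        smul_zero, hedef]
      simp only [← HahnSeries.C_apply, map_mul]
      ring)
  -- the reduction of the quotient is a constant
  have hp1 : ∀ s : LaurentSeries kA, qExpand kA p (coeffMap (frobenius kA p) s) = s ^ p :=
    fun s => by rw [← coeffMap_qExpand, ES.pow_char_eq]
  have hpp : ∀ s : LaurentSeries kA, qExpand kA (p * p) s = qExpand kA p (qExpand kA p s) :=
    fun s => (qExpand_qExpand (N := p) p s).symm
  have hrX : rX = HahnSeries.C a *
      (coeffMap (frobenius kA p) (coeffMap (frobenius kA p) ru) * rw' ^ p) := by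
    apply qExpand_injective (R := kA) p
    rw [hrel, map_mul, map_mul, hp1 (coeffMap _ ru), HahnSeries.C_apply, qExpand_single, mul_zero,
      hpp, hp1 rw']
    ring
  have hq := (hσσu.mul (hw.pow p)).div hX
  rw [hrX] at hq
  have hrne : coeffMap (frobenius kA p) (coeffMap (frobenius kA p) ru) * rw' ^ p ≠ 0 :=
    (hσσu.mul (hw.pow p)).choose_spec.2
  rw [div_mul_cancel_right₀ hrne, ← map_inv₀ HahnSeries.C] at hq
  obtain ⟨aA, haA⟩ := IsLocalRing.residue_surjective (R := A) a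
  have haA0 : (aA : Qb) ≠ 0 := fun h0 => ha (by
    rw [← haA, show aA = 0 from Subtype.ext h0, map_zero])
  have hca : HasRed A (algebraMap Qb (x1Bar M) (aA : Qb)) (HahnSeries.C a) := by
    have hcoe : ((algebraMap Qb (x1Bar M) (aA : Qb) : x1Bar M) : LaurentSeries Qb) =
        lsIncl A (HahnSeries.C aA) :=
      (Igusa.Down.coe_algebraMap_series Qb (aA : Qb)).trans
        (Igusa.coeffMap_C A.subtype aA).symm
    refine ⟨mem_lsInt_of_coeff A _ fun m => by rw [hcoe]; exact coeff_lsIncl_mem A _ m, ?_,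
      (map_ne_zero_iff _ HahnSeries.C_injective).mpr ha⟩
    rw [lsRed_of_eq A _ _ hcoe, lsResidue, Igusa.coeffMap_C, haA]
  have hone := hca.mul hq
  rw [← map_mul, mul_inv_cancel₀ ha, map_one] at hone
  set Y : (x1Bar M)ˣ := Units.map (x1Gal M σ).toRingHom.toMonoidHom z *
    Units.map φ.toRingEquiv.toRingHom.toMonoidHom y ^ p * (T z)⁻¹
  set C0 : Qb := (aA : Qb) * σ (σ c) * c' ^ p / c'' with hC0
  have hC00 : C0 ≠ 0 := div_ne_zero (mul_ne_zero (mul_ne_zero haA0
    ((map_ne_zero σ).mpr ((map_ne_zero σ).mpr hc))) (pow_ne_zero _ hc')) hc''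
  obtain ⟨v, hv⟩ := exists_pow_eq_of_hasRed_one A hp hA h5 hpM hn Y.ne_zero hsel hC00 (by
    convert hone using 1
    rw [show (g : GQ) = σ from rfl, hzx, x1Gal_smul]
    simp only [Y, hC0, Units.val_mul, Units.val_pow_eq_pow_val, Units.val_inv_eq_inv_val,
      Algebra.smul_def, map_mul, map_pow, mul_pow, div_eq_mul_inv, map_inv₀, mul_inv]
    simp only [RingHom.toMonoidHom_eq_coe, Units.coe_map, MonoidHom.coe_coe, RingEquiv.toRingHom_eq_coe,
      RingHom.coe_coe, AlgEquiv.coe_ringEquiv]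
    ring)
  rcases eq_or_ne n 0 with rfl | hn0
  · exact absurd (dvd_zero p) hn
  have hv0 : v ≠ 0 := by
    rintro rfl
    exact Y.ne_zero (by rw [← hv, zero_pow hn0])
  exact ⟨Units.mk0 v hv0, Units.ext hv⟩

/-- The action on units. -/
abbrev x1GalUnits (M : ℕ) [NeZero M] (σ : GQ) : (x1Bar M)ˣ →* (x1Bar M)ˣ :=
  Units.map (x1Gal M σ).toRingHom.toMonoidHom

/-- Galois permutes the places, so it preserves `kummerSel`. -/
theorem x1Gal_mem_kummerSel (σ : GQ) {n : ℕ} {y : (x1Bar M)ˣ}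
    (hy : y ∈ kummerSel Qb (x1Bar M) n) : x1GalUnits M σ y ∈ kummerSel Qb (x1Bar M) n := fun P => by
  set g := arithmeticGalois (x1FieldC ℚ M) σ
  have h := hy (g⁻¹ • P)
  rw [← SemilinearAut.ord_smul g (g⁻¹ • P), smul_inv_smul] at h
  exact h

/-- The Galois action on the Kummer group. -/
def x1GalV (M n : ℕ) [NeZero M] (σ : GQ) :
    KummerV Qb (x1Bar M) n →* KummerV Qb (x1Bar M) n :=
  kummerMap (x1GalUnits M σ) fun _ => x1Gal_mem_kummerSel σ

omit [NeZero p] in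
include hp hA h5 hpM in
/-- Inertia acts trivially on the Kummer group. -/
theorem x1GalV_eq_of_inertia {σ : GQ} (hσ : σ ∈ A.inertiaSubgroupIn ℚ) {n : ℕ} (hn : ¬ p ∣ n)
    (x : KummerV Qb (x1Bar M) n) : x1GalV M n σ x = x := by
  obtain ⟨y, rfl⟩ := kummerMk_surjective x
  rw [x1GalV, kummerMap_mk, ← mul_inv_eq_one, ← map_inv, ← map_mul, kummerMk_eq_one]
  exact exists_pow_eq_of_inertia A hp hA h5 hpM hσ hn _
    (mul_mem (x1Gal_mem_kummerSel σ y.2) (inv_mem y.2))

include hp hA h5 hpM in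
/-- `F² - T F + p ⟨p⟩ = 0` on the Kummer group, multiplicatively. -/
theorem x1GalV_frobenius {σ : GQ} (hσ : A.IsFrobeniusAt σ p) {d : (ZMod M)ˣ}
    {φ : x1Bar M ≃ₐ[Qb] x1Bar M} (hφ : IsDiamond M d φ) {T : (x1Bar M)ˣ →* (x1Bar M)ˣ}
    (hT : IsHeckeOp M p φ T) {n : ℕ} (hn : ¬ p ∣ n)
    (hφs : ∀ y ∈ kummerSel Qb (x1Bar M) n,
      Units.map φ.toRingEquiv.toRingHom.toMonoidHom y ∈ kummerSel Qb (x1Bar M) n)
    (hTs : ∀ y ∈ kummerSel Qb (x1Bar M) n, T y ∈ kummerSel Qb (x1Bar M) n)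
    (x : KummerV Qb (x1Bar M) n) :
    x1GalV M n σ (x1GalV M n σ x) * kummerMap _ hφs x ^ p =
      kummerMap T hTs (x1GalV M n σ x) := by
  obtain ⟨y, rfl⟩ := kummerMk_surjective x
  rw [x1GalV, kummerMap_mk, kummerMap_mk, kummerMap_mk, kummerMap_mk, ← mul_inv_eq_one, ← map_pow,
    ← map_inv, ← map_mul, ← map_mul, kummerMk_eq_one]
  exact exists_pow_eq_of_frobenius A hp hA h5 hpM hσ hφ hT hn _
    (mul_mem (mul_mem (x1Gal_mem_kummerSel σ (x1Gal_mem_kummerSel σ y.2))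
      (pow_mem (hφs _ y.2) _)) (inv_mem (hTs _ (x1Gal_mem_kummerSel σ y.2))))

end FermatAgent.DeligneSerre.X1
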