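import Fermat.Agent.DeligneSerre.X1.GoodRed.Model
import Fermat.Agent.ES.Galois

/-!
# Galois and diamonds on the integers of `X₁(M)`
-/

set_option autoImplicit false
set_option synthInstance.maxHeartbeats 200000

noncomputable section

open ModularCurve

namespace FermatAgent.DeligneSerre.X1

local notation "Qb" => AlgebraicClosure ℚ
local notation "GQ" => AlgebraicClosure ℚ ≃ₐ[ℚ] AlgebraicClosure ℚ

variable {M : ℕ} [NeZero M]

/-- The coefficientwise action on `x1Bar M`. -/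
abbrev x1Gal (M : ℕ) [NeZero M] (σ : GQ) : x1Bar M ≃+* x1Bar M :=
  arithmeticRingAut (x1FieldC ℚ M) σ

theorem coe_x1Gal (σ : GQ) (x : x1Bar M) :
    (x1Gal M σ x : LaurentSeries Qb) = coeffMap (σ : Qb →+* Qb) (x : LaurentSeries Qb) := rfl

theorem x1Gal_smul (σ : GQ) (c : Qb) (x : x1Bar M) :
    x1Gal M σ (c • x) = σ c • x1Gal M σ x := by
  rw [Algebra.smul_def, Algebra.smul_def, map_mul, x1Gal, arithmeticRingAut_algebraMap]

/-- Diamond automorphisms are defined over `ℚ`. -/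
theorem IsDiamond.x1Gal_comm {d : (ZMod M)ˣ} {φ : x1Bar M ≃ₐ[Qb] x1Bar M}
    (hφ : IsDiamond M d φ) (σ : GQ) (f : x1Bar M) :
    φ (x1Gal M σ f) = x1Gal M σ (φ f) := by
  have key : ∀ x ∈ x1FieldC Qb M, ∀ hx : x ∈ x1Bar M,
      φ (x1Gal M σ ⟨x, hx⟩) = x1Gal M σ (φ ⟨x, hx⟩) := by
    have hle : ∀ y, y ∈ x1FieldC Qb M → y ∈ x1Bar M := fun y hy => by
      rw [x1Bar, laurentBaseChange_x1]; exact hy
    intro x hx
    induction hx using IntermediateField.adjoin_induction with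
    | mem x hx =>
      intro hx'
      rcases hx with (rfl | rfl) | ⟨i, rfl⟩
      · have e : x1Gal M σ ⟨_, hx'⟩ = ⟨_, hx'⟩ :=
          Subtype.ext (coeffMap_jqModC (σ : Qb →+* Qb))
        rw [e, (hφ ⟨_, hx'⟩).1 rfl, e]
      · have e : x1Gal M σ ⟨_, hx'⟩ = ⟨_, hx'⟩ :=
          Subtype.ext (coeffMap_jqNModC (σ : Qb →+* Qb) M)
        rw [e, (hφ ⟨_, hx'⟩).2.1 rfl, e]
      · have e : x1Gal M σ ⟨_, hx'⟩ = ⟨_, hx'⟩ :=
          Subtype.ext (coeffMap_genSer (σ : Qb →+* Qb) M _ _)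
        have h := (hφ ⟨_, hx'⟩).2.2 i.1.1 i.1.2
          (((i.1.1 : ℕ) : ZMod M) * ((d⁻¹ : (ZMod M)ˣ) : ZMod M)).val
          (((i.1.2 : ℕ) : ZMod M) * ((d⁻¹ : (ZMod M)ˣ) : ZMod M)).val
          (not_dvd_genIdx i).1 (not_dvd_genIdx i).2 (ZMod.natCast_zmod_val _) (ZMod.natCast_zmod_val _) rfl
        rw [e]
        refine Subtype.ext ?_
        rw [coe_x1Gal, h, coeffMap_genSer]
    | algebraMap c =>
      intro hx'
      have e : (⟨_, hx'⟩ : x1Bar M) = algebraMap Qb (x1Bar M) c := Subtype.ext rfl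
      rw [e, arithmeticRingAut_algebraMap, φ.commutes, φ.commutes, arithmeticRingAut_algebraMap]
    | add a b ha hb iha ihb =>
      intro hx'
      have e : (⟨_, hx'⟩ : x1Bar M) = ⟨a, hle a ha⟩ + ⟨b, hle b hb⟩ := rfl
      rw [e, map_add, map_add, map_add, map_add, iha, ihb]
    | inv a ha iha =>
      intro hx'
      have e : (⟨_, hx'⟩ : x1Bar M) = (⟨a, hle a ha⟩ : x1Bar M)⁻¹ := Subtype.ext rfl
      rw [e, map_inv₀, map_inv₀, map_inv₀, map_inv₀, iha]
    | mul a b ha hb iha ihb =>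
      intro hx'
      have e : (⟨_, hx'⟩ : x1Bar M) = ⟨a, hle a ha⟩ * ⟨b, hle b hb⟩ := rfl
      rw [e, map_mul, map_mul, map_mul, map_mul, iha, ihb]
  exact key _ (by rw [← laurentBaseChange_x1]; exact f.2) f.2

section Integers

variable {A : ValuationSubring Qb}

/-- The action of the decomposition group on integral series. -/
abbrev decAct (g : A.decompositionSubgroup ℚ) : A →+* A :=
  MulSemiringAction.toRingHom (A.decompositionSubgroup ℚ) A g

theorem lsIncl_decAct (g : A.decompositionSubgroup ℚ) (s : LaurentSeries A) :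
    lsIncl A (coeffMap (decAct g) s) = coeffMap ((g : GQ) : Qb →+* Qb) (lsIncl A s) := by
  rw [coeffMap_coeffMap, coeffMap_coeffMap]
  exact coeffMap_congr (RingHom.ext fun _ => rfl) s

theorem lsResidue_decAct (g : A.decompositionSubgroup ℚ) (s : LaurentSeries A) :
    lsResidue A (coeffMap (decAct g) s) = coeffMap (ES.residueAut g).toRingHom (lsResidue A s) := by
  rw [coeffMap_coeffMap, coeffMap_coeffMap]
  exact coeffMap_congr (RingHom.ext fun a => (ES.residueAut_residue g a).symm) s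

theorem x1Gal_mem_x1Int (g : A.decompositionSubgroup ℚ) {x : x1Bar M} (hx : x ∈ x1Int A M) :
    x1Gal M (g : GQ) x ∈ x1Int A M := by
  obtain ⟨s, t, ht, ht0, h⟩ := exists_rep A (x1Bar M) ⟨x, hx⟩
  refine ⟨coeffMap (decAct g) s, coeffMap (decAct g) t, ?_, ?_, ?_⟩
  · rw [lsIncl_decAct]
    exact coeffMap_mem_laurentBaseChange _ ht
  · rw [lsResidue_decAct]
    exact (map_ne_zero_iff _ (FermatAgent.Igusa.coeffMap_injective (ES.residueAut g).injective)).mpr ht0
  · rw [coe_x1Gal, lsIncl_decAct, lsIncl_decAct, ← map_mul, h]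

theorem lsRed_x1Gal (g : A.decompositionSubgroup ℚ) (x : x1Int A M) :
    lsRed A (x1Bar M) ⟨x1Gal M (g : GQ) x, x1Gal_mem_x1Int g x.2⟩ =
      coeffMap (ES.residueAut g).toRingHom (lsRed A (x1Bar M) x) := by
  obtain ⟨s, t, -, ht0, h⟩ := exists_rep A (x1Bar M) x
  rw [lsRed_eq_div A _ x ht0 h, map_div₀, ← lsResidue_decAct, ← lsResidue_decAct]
  refine lsRed_eq_div A _ _ ?_ ?_
  · rw [lsResidue_decAct]
    exact (map_ne_zero_iff _ (FermatAgent.Igusa.coeffMap_injective (ES.residueAut g).injective)).mpr ht0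
  · show (x1Gal M (g : GQ) x : LaurentSeries Qb) * _ = _
    rw [coe_x1Gal, lsIncl_decAct, lsIncl_decAct, ← map_mul, h]

/-- The inverse of an integer with nonzero reduction is an integer. -/
theorem inv_mem_lsInt {K : Type*} [Field K] (B : ValuationSubring K)
    (E : IntermediateField K (LaurentSeries K)) (x : lsInt B E) (hx : lsRed B E x ≠ 0) :
    (x : E)⁻¹ ∈ lsInt B E := by
  obtain ⟨s, t, ht, ht0, h⟩ := exists_rep B E x
  have hs0 : lsResidue B s ≠ 0 := fun h0 => hx (by rw [lsRed_eq_div B E x ht0 h, h0, zero_div])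
  refine ⟨t, s, h ▸ mul_mem x.1.2 ht, hs0, ?_⟩
  have hs := ne_zero_of_lsResidue B hs0
  rw [← h] at hs
  rw [← h, show (((x : E)⁻¹ : E) : LaurentSeries K) = ((x : E) : LaurentSeries K)⁻¹ from rfl,
    inv_mul_cancel_left₀ (left_ne_zero_of_mul hs)]

end Integers

end FermatAgent.DeligneSerre.X1
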